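/-
C1 nodal core, instantiation (helper201): the three good bases `j`, `h₂`, `h₃` in EXPLICIT form
(`S18/Base/Bases.lean` only states `Nonempty (BaseData M ℓ)`): a `D : S18.BaseData M ℓ` whose
coordinate over `ℚ̄` is the given function and whose integral series is known.
-/
import Fermat.Agent.S18.Base.Bases

set_option autoImplicit false

noncomputable section

namespace Fermat.Agent.S34.Nodal.Inst.Base

open Polynomial IntermediateField ModularCurve AlgebraicCurve Fermat.Agent.S24 Fermat.Agent.S18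
open Fermat.Agent.S24.FF Fermat.Agent.Lib.Hauptmodul Fermat.Agent.S18.Base

/-- Explicit form of `S18.Base.nonempty_baseData_of`. -/
theorem exists_baseData_of (M ℓ : ℕ) (e : ℤ) (he : e ≠ 0) (u : PowerSeries ℤ)
    (hu : PowerSeries.constantCoeff u = 1)
    (mem : coeffMap (Int.castRingHom ℚ) (mkX e u) ∈ modularFunctionFieldFull M)
    (j_mem : jq ∈ ℚ⟮coeffMap (Int.castRingHom ℚ) (mkX e u)⟯)
    (x : FN M)
    (hx : (x : LaurentSeries Kbar) = coeffEmb Kbar (coeffMap (Int.castRingHom ℚ) (mkX e u)))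
    (a b : ℤ) (ha : IsUnit (a : ZMod ℓ)) (hb : IsUnit (b : ZMod ℓ))
    (ram : ∀ (v : Place Kbar (FN M)) (c : Kbar), c ≠ 0 → (a : Kbar) * c + b ≠ 0 →
      0 < v.ord (x - algebraMap Kbar (FN M) c) → v.ord (x - algebraMap Kbar (FN M) c) = 1) :
    ∃ D : BaseData M ℓ, D.X = mkX e u ∧ D.xK Kbar = x := by
  have hxe : (⟨_, coeffEmb_mem_laurentBaseChange Kbar mem⟩ : FN M) = x := Subtype.ext hx.symm
  refine ⟨{
    X := mkX e u
    Xinv := mkX (-e) (u.invOfUnit 1)
    mul_inv := mkX_mul_inv e u hu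
    order_ne := by rw [order_mkX e u hu]; exact he
    mem := mem
    j_mem := j_mem
    g₁ := C a * X ^ 2 + C b * X
    g₂ := C b * X ^ 2 + C a * X
    sep₁ := by
      rw [map_quad]
      exact separable_quad _ _ (by simpa using hb)
    sep₂ := by
      rw [map_quad]
      exact separable_quad _ _ (by simpa using ha)
    ram₁ := ?_
    ram₂ := ?_ }, rfl, hxe⟩
  · intro v c hc hv
    rw [hxe] at hv ⊢
    obtain ⟨h0, h1⟩ := eval_quad_ne hc
    exact ram v c h0 h1 hv
  · intro v c hc hv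
    rw [hxe] at hv ⊢
    obtain ⟨h0, h1⟩ := eval_quad_ne hc
    have e1 := ord_inv_sub x v c h0 hv
    rw [e1] at hv ⊢
    refine ram v c⁻¹ (inv_ne_zero h0) ?_ hv
    intro h2
    apply h1
    field_simp at h2
    linear_combination h2

theorem exists_baseData_j (M ℓ : ℕ) [NeZero M] (hℓ : ℓ.Prime) (h5 : 5 ≤ ℓ) :
    ∃ D : BaseData M ℓ, D.X = mkX (-1) jNum ∧ D.xK Kbar = jF M := by
  refine exists_baseData_of M ℓ (-1) (by norm_num) jNum constantCoeff_jNum ?_ ?_ (jF M) ?_
    1 (-1728) (by simp) (isUnit_1728 hℓ h5) ?_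
  · rw [coeffMap_mkX_jNum]
    have h := jqd_mem_full M (one_dvd M)
    rwa [qExpand_one_apply] at h
  · rw [coeffMap_mkX_jNum]
    exact mem_adjoin_simple_self ℚ jq
  · rw [coeffMap_mkX_jNum]
    exact Bar.coe_jF M
  · intro v c h0 h1 hv
    refine Export.ord_jF_sub_eq_one M c h0 ?_ v hv
    rintro rfl
    apply h1
    push_cast
    ring

theorem exists_baseData_h2 (M : ℕ) [NeZero M] (h2 : 2 ∣ M) :
    ∃ D : BaseData M 3, D.X = mkX 1 u2Z ∧ D.xK Kbar = h2F M h2 := by
  have e : coeffMap (Int.castRingHom ℚ) (mkX 1 u2Z) = h2q := coeffMap_mkX_one u2Z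
  refine exists_baseData_of M 3 1 one_ne_zero u2Z constantCoeff_u2Z ?_ ?_ (h2F M h2) ?_
    64 1 (by decide) (by decide) ?_
  · rw [e]
    exact full_degeneracy_le h2 h2q_mem
  · rw [e]
    have hne : h2q ≠ 0 := by
      intro h
      have := coeff_h2q_one
      rw [h] at this
      simp at this
    have h1 : jq = (1 + 256 * h2q) ^ 3 / h2q := by
      rw [eq_div_iff hne]
      exact jq_mul_h2q
    rw [h1]
    have hm := mem_adjoin_simple_self ℚ h2q
    exact div_mem (pow_mem (add_mem (one_mem _) (mul_mem (by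
      have := _root_.natCast_mem ℚ⟮h2q⟯ 256
      simpa using this) hm)) 3) hm
  · rw [e]
    rfl
  · intro v c h0 h1 hv
    exact ord_h2F_sub_eq_one M h2 c h0 (by simpa using h1) v hv

theorem exists_baseData_h3 (M : ℕ) [NeZero M] (h3 : 3 ∣ M) :
    ∃ D : BaseData M 2, D.X = mkX 1 u3Z ∧ D.xK Kbar = h3F M h3 := by
  have e : coeffMap (Int.castRingHom ℚ) (mkX 1 u3Z) = h3q := coeffMap_mkX_one u3Z
  refine exists_baseData_of M 2 1 one_ne_zero u3Z constantCoeff_u3Z ?_ ?_ (h3F M h3) ?_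
    27 1 (by decide) (by decide) ?_
  · rw [e]
    exact full_degeneracy_le h3 h3q_mem
  · rw [e]
    have hne : h3q ≠ 0 := by
      intro h
      have := coeff_h3q_one
      rw [h] at this
      simp at this
    have h1 : jq = (1 + 27 * h3q) * (1 + 243 * h3q) ^ 3 / h3q := by
      rw [eq_div_iff hne]
      exact jq_mul_h3q
    rw [h1]
    have hm := mem_adjoin_simple_self ℚ h3q
    exact div_mem (mul_mem (add_mem (one_mem _) (mul_mem (by
      have := _root_.natCast_mem ℚ⟮h3q⟯ 27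
      simpa using this) hm)) (pow_mem (add_mem (one_mem _) (mul_mem (by
      have := _root_.natCast_mem ℚ⟮h3q⟯ 243
      simpa using this) hm)) 3)) hm
  · rw [e]
    rfl
  · intro v c h0 h1 hv
    exact ord_h3F_sub_eq_one M h3 c h0 (by simpa using h1) v hv

end Fermat.Agent.S34.Nodal.Inst.Base

end
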