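/-
C1 nodal core, instantiation (architect helper201): the shared definitions.

Parametric setting: `K` a field, `A` a valuation subring with residue field `k`,
`F ⊆ K((t))` the function field of level `N = M q`, `w` an automorphism of `F` (Atkin-Lehner),
`F' ⊆ K((t))` the function field of level `M`.

* `rho`     : the residue map of the Gauss ring `S18.Vert.gaussSubring A F`, with values in `k((t))`
* `OO`      : elements which are Gauss integral at `v_∞` and at `v_0 = v_∞ ∘ w`
* `red2`    : the pair of reductions `OO → k((t)) × k((t))`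
* `chart x` : elements of `OO` which are integral over `K[x]`
* `chart' x`: (one valuation, level `M`) Gauss integral elements which are integral over `K[x]`
* `bb x`    : the reduction of `chart' x`, a `k`-subalgebra of `k((t))`
-/
import Fermat.Agent.S18.Vert.Gauss
import Fermat.Agent.S34.Nodal.Main

set_option autoImplicit false

noncomputable section

namespace Fermat.Agent.S34.Nodal.Inst

open ModularCurve Fermat.Agent.S18.Vert

variable {K : Type*} [Field K] (A : ValuationSubring K)
variable (F : IntermediateField K (LaurentSeries K))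

/-- The residue field. -/
abbrev kk : Type _ := IsLocalRing.ResidueField A

variable {A} in
theorem inc_ne_zero' {Q : LaurentSeries A} (hQ : red A Q ≠ 0) : inc A Q ≠ 0 := by
  rw [Ne, inc_eq_zero_iff]
  rintro rfl
  exact hQ (map_zero _)

variable {A} in
theorem red_mul_eq' {f : LaurentSeries K} {P Q P' Q' : LaurentSeries A}
    (h : f * inc A Q = inc A P) (h' : f * inc A Q' = inc A P') :
    red A P * red A Q' = red A P' * red A Q := by
  have h1 : inc A (P * Q') = inc A (P' * Q) := by
    rw [map_mul, map_mul, ← h, ← h']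
    ring
  rw [← map_mul, ← map_mul, inc_injective A h1]

/-- Existence of the residue map of the Gauss ring (any valuation subring `A`). -/
theorem exists_rho :
    ∃ ρ : gaussSubring A F →+* LaurentSeries (kk A),
      ∀ (f : gaussSubring A F) (P Q : LaurentSeries A), red A Q ≠ 0 →
        ((f : F) : LaurentSeries K) * inc A Q = inc A P → ρ f * red A Q = red A P := by
  classical
  have hex : ∀ f : gaussSubring A F, ∃ PQ : LaurentSeries A × LaurentSeries A,
      red A PQ.2 ≠ 0 ∧ ((f : F) : LaurentSeries K) * inc A PQ.2 = inc A PQ.1 := by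
    rintro ⟨f, P, Q, -, -, hQ0, h⟩
    exact ⟨(P, Q), hQ0, h⟩
  choose c hc0 hc using hex
  let r : gaussSubring A F → LaurentSeries (kk A) :=
    fun f => red A (c f).1 / red A (c f).2
  have hr : ∀ (f : gaussSubring A F) (P Q : LaurentSeries A), red A Q ≠ 0 →
      ((f : F) : LaurentSeries K) * inc A Q = inc A P → r f * red A Q = red A P := by
    intro f P Q hQ0 h
    have h1 := red_mul_eq' (hc f) h
    show red A (c f).1 / red A (c f).2 * red A Q = red A P
    rw [div_mul_eq_mul_div, h1, mul_div_assoc, div_self (hc0 f), mul_one]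
  refine ⟨{ toFun := r, map_one' := ?_, map_mul' := ?_, map_zero' := ?_, map_add' := ?_ }, hr⟩
  · have := hr 1 1 1 (by rw [map_one]; exact one_ne_zero) (by simp)
    rwa [map_one, mul_one] at this
  · intro f g
    have h1 := hr (f * g) ((c f).1 * (c g).1) ((c f).2 * (c g).2)
      (by rw [map_mul]; exact mul_ne_zero (hc0 f) (hc0 g)) (by
        rw [map_mul, map_mul, ← hc f, ← hc g]
        push_cast
        ring)
    have h2 := hr f _ _ (hc0 f) (hc f)
    have h3 := hr g _ _ (hc0 g) (hc g)
    apply mul_right_cancel₀ (mul_ne_zero (hc0 f) (hc0 g))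
    rw [map_mul, map_mul] at h1
    rw [h1, ← h2, ← h3]
    ring
  · have := hr 0 0 1 (by rw [map_one]; exact one_ne_zero) (by simp)
    rwa [map_one, mul_one, map_zero] at this
  · intro f g
    have h1 := hr (f + g) ((c f).1 * (c g).2 + (c g).1 * (c f).2) ((c f).2 * (c g).2)
      (by rw [map_mul]; exact mul_ne_zero (hc0 f) (hc0 g)) (by
        rw [map_add, map_mul, map_mul, map_mul, ← hc f, ← hc g]
        push_cast
        ring)
    have h2 := hr f _ _ (hc0 f) (hc f)
    have h3 := hr g _ _ (hc0 g) (hc g)
    apply mul_right_cancel₀ (mul_ne_zero (hc0 f) (hc0 g))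
    rw [map_add, map_mul, map_mul, map_mul] at h1
    rw [h1, ← h2, ← h3]
    ring

/-- The residue map of the Gauss ring, with values in `k((t))`. -/
def rho : gaussSubring A F →+* LaurentSeries (kk A) := (exists_rho A F).choose

variable {A F} in
theorem rho_spec (f : gaussSubring A F) {P Q : LaurentSeries A} (hQ : red A Q ≠ 0)
    (h : ((f : F) : LaurentSeries K) * inc A Q = inc A P) : rho A F f * red A Q = red A P :=
  (exists_rho A F).choose_spec f P Q hQ h

variable {A F} in
/-- An integral series lying in `F` belongs to the Gauss ring. -/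
theorem inc_mem_gauss (P : LaurentSeries A) (hP : inc A P ∈ F) :
    (⟨inc A P, hP⟩ : F) ∈ gaussSubring A F :=
  ⟨P, 1, hP, by rw [map_one]; exact one_mem F, by rw [map_one]; exact one_ne_zero, by simp⟩

variable {A F} in
theorem rho_inc (P : LaurentSeries A) (hP : inc A P ∈ F) :
    rho A F ⟨⟨inc A P, hP⟩, inc_mem_gauss P hP⟩ = red A P := by
  have := rho_spec (A := A) (F := F) ⟨⟨inc A P, hP⟩, inc_mem_gauss P hP⟩ (P := P) (Q := 1)
    (by rw [map_one]; exact one_ne_zero) (by simp)
  rwa [map_one, mul_one] at this

/-- Constants of `A` lie in the Gauss ring. -/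
theorem algebraMap_mem_gauss (a : A) : algebraMap K F (a : K) ∈ gaussSubring A F := by
  have h : inc A (HahnSeries.C a) ∈ F := by rw [inc_C]; exact F.algebraMap_mem _
  have e : algebraMap K F (a : K) = ⟨inc A (HahnSeries.C a), h⟩ := Subtype.ext (inc_C A a).symm
  rw [e]
  exact inc_mem_gauss _ h

theorem rho_algebraMap (a : A) :
    rho A F ⟨algebraMap K F (a : K), algebraMap_mem_gauss A F a⟩ =
      algebraMap (kk A) (LaurentSeries (kk A)) (IsLocalRing.residue A a) := by
  have h : inc A (HahnSeries.C a) ∈ F := by rw [inc_C]; exact F.algebraMap_mem _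
  have e : (⟨algebraMap K F (a : K), algebraMap_mem_gauss A F a⟩ : gaussSubring A F) =
      ⟨⟨inc A (HahnSeries.C a), h⟩, inc_mem_gauss _ h⟩ :=
    Subtype.ext (Subtype.ext (inc_C A a).symm)
  rw [e, rho_inc, red_C, algebraMap_laurentSeries_eq_single]
  rfl

/-! ### Level `M`: one valuation -/

/-- Gauss integral elements which are integral over `K[x]`. -/
def chart' (x : F) : Subring F :=
  gaussSubring A F ⊓ (integralClosure (Algebra.adjoin K {x}) F).toSubring

variable {A F} in
theorem mem_chart' {x y : F} :
    y ∈ chart' A F x ↔ y ∈ gaussSubring A F ∧ IsIntegral (Algebra.adjoin K {x}) y := Iff.rfl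

/-- The reduction of `chart' x`. -/
def bb (x : F) : Subalgebra (kk A) (LaurentSeries (kk A)) where
  carrier := {z | ∃ y : gaussSubring A F, (y : F) ∈ chart' A F x ∧ rho A F y = z}
  mul_mem' := by
    rintro _ _ ⟨y, hy, rfl⟩ ⟨y', hy', rfl⟩
    exact ⟨y * y', (chart' A F x).mul_mem hy hy', map_mul _ _ _⟩
  add_mem' := by
    rintro _ _ ⟨y, hy, rfl⟩ ⟨y', hy', rfl⟩
    exact ⟨y + y', (chart' A F x).add_mem hy hy', map_add _ _ _⟩
  algebraMap_mem' := by
    intro c
    obtain ⟨a, rfl⟩ := IsLocalRing.residue_surjective c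
    refine ⟨⟨algebraMap K F (a : K), algebraMap_mem_gauss A F a⟩,
      ⟨algebraMap_mem_gauss A F a, ?_⟩, rho_algebraMap A F a⟩
    have : algebraMap K F (a : K) =
        algebraMap (Algebra.adjoin K {x}) F (algebraMap K (Algebra.adjoin K {x}) (a : K)) := rfl
    show IsIntegral (Algebra.adjoin K {x}) (algebraMap K F (a : K))
    rw [this]
    exact isIntegral_algebraMap

variable {A F} in
theorem mem_bb {x : F} {z : LaurentSeries (kk A)} :
    z ∈ bb A F x ↔ ∃ y : gaussSubring A F, (y : F) ∈ chart' A F x ∧ rho A F y = z := Iff.rfl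

/-! ### Level `N = M q`: two valuations -/

variable (w : F ≃ₐ[K] F)

/-- Elements which are Gauss integral at `v_∞` and at `v_0 = v_∞ ∘ w`. -/
def OO : Subring F := gaussSubring A F ⊓ (gaussSubring A F).comap (w : F →+* F)

variable {A F w} in
theorem mem_OO {y : F} : y ∈ OO A F w ↔ y ∈ gaussSubring A F ∧ w y ∈ gaussSubring A F := Iff.rfl

/-- The first projection `OO → gaussSubring`. -/
def pr1 : OO A F w →+* gaussSubring A F := Subring.inclusion inf_le_left

/-- The second projection `OO → gaussSubring`, `y ↦ w y`. -/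
def pr2 : OO A F w →+* gaussSubring A F :=
  ((w : F →+* F).comp (OO A F w).subtype).codRestrict (gaussSubring A F) fun y => y.2.2

/-- The pair of reductions. -/
def red2 : OO A F w →+* LaurentSeries (kk A) × LaurentSeries (kk A) :=
  ((rho A F).comp (pr1 A F w)).prod ((rho A F).comp (pr2 A F w))

variable {A F w} in
theorem red2_fst (y : OO A F w) : (red2 A F w y).1 = rho A F ⟨y, y.2.1⟩ := rfl

variable {A F w} in
theorem red2_snd (y : OO A F w) : (red2 A F w y).2 = rho A F ⟨w y, y.2.2⟩ := rfl

/-- Elements of `OO` which are integral over `K[x]`. -/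
def chart (x : F) : Subring F :=
  OO A F w ⊓ (integralClosure (Algebra.adjoin K {x}) F).toSubring

variable {A F w} in
theorem mem_chart {x y : F} :
    y ∈ chart A F w x ↔ y ∈ OO A F w ∧ IsIntegral (Algebra.adjoin K {x}) y := Iff.rfl

/-- Elements of `OO` which are integral over `K[x, x⁻¹]`. -/
def chartMid (x : F) : Subring F :=
  OO A F w ⊓ (integralClosure (Algebra.adjoin K {x, x⁻¹}) F).toSubring

variable {A F w} in
theorem mem_chartMid {x y : F} :
    y ∈ chartMid A F w x ↔ y ∈ OO A F w ∧ IsIntegral (Algebra.adjoin K {x, x⁻¹}) y := Iff.rfl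

end Fermat.Agent.S34.Nodal.Inst

end
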