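/-
C1 nodal core, instantiation (architect helper201): the contracts.

`Contracts` lists everything the modular blocks G, K, II have to provide (in the language of
`Inst/Defs.lean`).  Block R (Riemann) is a hypothesis on the `Setup` built from the contracts, see
`Inst/Assembly.lean`, where the final theorem `Contracts.tor` is proved: for an automorphism `g`
compatible with the data (`GalCompat`), and `u ≡ 1` at both valuations with `n ∣ div u`:
`g u = z ^ n * u ^ Q`.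
-/
import Fermat.Agent.S34.Nodal.Inst.Defs
import Fermat.Agent.S34.Nodal.Conductor
import Fermat.Agent.S34.Nodal.Lifting

set_option autoImplicit false

noncomputable section

namespace Fermat.Agent.S34.Nodal.Inst

open ModularCurve Fermat.Agent.S18.Vert Polynomial Module

variable {K : Type*} [Field K] (A : ValuationSubring K)
variable (F F' : IntermediateField K (LaurentSeries K)) (w : F ≃ₐ[K] F)

/-- The target of the pair of reductions. -/
abbrev Om : Type _ := LaurentSeries (kk A) × LaurentSeries (kk A)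

/-- The integral sections of `O(D + e C)`, `n D = div u`. -/
def HH (x : F) (n : ℕ) (u : F) (e : ℕ) : Set (OO A F w) :=
  {y | (y : F) ^ n * u ∈ chart A F w x ∧ (x⁻¹ ^ e * (y : F)) ^ n * u ∈ chart A F w x⁻¹}

/-- The `k`-span of the reductions of the integral sections. -/
def YY (x : F) (n : ℕ) (u : F) (e : ℕ) : Submodule (kk A) (Om A) :=
  Submodule.span (kk A) (red2 A F w '' HH A F w x n u e)

/-- The contracts. `IsK u` stands for "`n ∣ div u`". -/
structure Contracts (x' : F') (x : F) (n q : ℕ) (IsK : F → Prop) where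
  npos : 0 < n
  two_le : 2 ≤ q
  /-- block G1 -/
  root : ∀ z : F, z ^ n ∈ gaussSubring A F → z ∈ gaussSubring A F
  x_ne : x ≠ 0
  x_mem : x ∈ OO A F w
  xinv_mem : x⁻¹ ∈ OO A F w
  /-- block G3 -/
  red_chart1 : ∀ y : OO A F w, (y : F) ∈ chart A F w x →
    (red2 A F w y).1 ∈ bb A F' x' ∧ (red2 A F w y).2 ∈ bb A F' x'
  red_chart2 : ∀ y : OO A F w, (y : F) ∈ chart A F w x⁻¹ →
    (red2 A F w y).1 ∈ bb A F' x'⁻¹ ∧ (red2 A F w y).2 ∈ bb A F' x'⁻¹
  int1 : ∀ y : gaussSubring A F, rho A F y ^ n ∈ bb A F' x' → rho A F y ∈ bb A F' x'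
  int2 : ∀ y : gaussSubring A F, rho A F y ^ n ∈ bb A F' x'⁻¹ → rho A F y ∈ bb A F' x'⁻¹
  /-- block K2: `f(t) ↦ f(t ^ (q ^ 2))` on `b₁` -/
  Fr2 : bb A F' x' →+* bb A F' x'
  /-- block K2: the inverse of the coefficientwise `q ^ 2`-Frobenius on `b₁` -/
  ψ : bb A F' x' →+* bb A F' x'
  Fr2_eq : ∀ f, Fr2 f = ψ f ^ (q ^ 2)
  /-- the reduction of `x'` -/
  xb : bb A F' x'
  Fr2_xb : Fr2 xb = xb ^ (q ^ 2)
  /-- block G2 -/
  fin_b1 : ∃ S : Finset (bb A F' x'), ∀ y : bb A F' x',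
    y ∈ Submodule.span (kk A) {z : bb A F' x' | ∃ g ∈ S, ∃ a : ℕ, z = xb ^ a * g}
  /-- block K1 -/
  proj1 : ∀ c : bb A F' x', ∃ y : OO A F w, (y : F) ∈ chart A F w x ∧ (red2 A F w y).1 = c
  proj2 : ∀ c : bb A F' x', ∃ y : OO A F w, (y : F) ∈ chart A F w x ∧ (red2 A F w y).2 = c
  /-- block K2 -/
  gen1 : ∀ f : bb A F' x', ∃ y : OO A F w, (y : F) ∈ chart A F w x ∧
    red2 A F w y = (((f - Fr2 f : bb A F' x') : LaurentSeries (kk A)), 0)
  gen2 : ∀ f : bb A F' x', ∃ y : OO A F w, (y : F) ∈ chart A F w x ∧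
    red2 A F w y = (0, ((f - Fr2 f : bb A F' x') : LaurentSeries (kk A)))
  /-- block K4 -/
  exhaust : ∀ b ∈ chart A F w x, ∃ e : ℕ, x⁻¹ ^ e * b ∈ chart A F w x⁻¹
  /-- block K5 -/
  hdiv : ∀ d : OO A F w, (d : F) ∈ chartMid A F w x → red2 A F w d = 0 →
    ∃ p z : OO A F w, (p : F) ∈ chart A F w x ∧ (p : F) ∈ chart A F w x⁻¹ ∧ red2 A F w p = 0 ∧
      (z : F) ∈ chartMid A F w x ∧ d = p * z
  /-- block K6 -/
  hH1 : ∃ c : ℕ, ∀ z ∈ chartMid A F w x, ∃ z1 ∈ chart A F w x, ∃ z2 ∈ chart A F w x⁻¹,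
    z = z1 + x ^ c * z2
  /-- block K3 -/
  hcond2 : ∃ P : (kk A)[X], P.eval 0 ≠ 0 ∧
    ∀ v : Om A, v.1 ∈ bb A F' x'⁻¹ → v.2 ∈ bb A F' x'⁻¹ →
      ∃ y : OO A F w, (y : F) ∈ chart A F w x⁻¹ ∧
        red2 A F w y = aeval (red2 A F w ⟨x⁻¹, xinv_mem⟩) P * v
  isK_mul : ∀ u v, IsK u → IsK v → IsK (u * v)
  isK_inv : ∀ u, IsK u → IsK u⁻¹
  isK_one : IsK 1
  /-- block II -/
  layerII : ∀ h s1 s2 : OO A F w, red2 A F w h = 1 → red2 A F w s1 = 1 → red2 A F w s2 = 1 →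
    (s1 : F) ^ n * h ∈ chart A F w x → (s2 : F) ^ n * h ∈ chart A F w x⁻¹ → ∃ z : F, (h : F) = z ^ n

/-- Compatibility of an automorphism `g` of `F` with the data: `φ` is the action on `k((t))`,
`Q` the exponent (`Q = 1`, `φ = id` for inertia; `Q = q ^ 2` for the square of a Frobenius). -/
structure GalCompat {x' : F'} {x : F} {n q : ℕ} {IsK : F → Prop}
    (C : Contracts A F F' w x' x n q IsK) (g : F ≃+* F)
    (φ : LaurentSeries (kk A) →+* LaurentSeries (kk A)) (Q : ℕ) : Prop where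
  gauss : ∀ y ∈ gaussSubring A F, g y ∈ gaussSubring A F
  comm : ∀ y, g (w y) = w (g y)
  fix_x : g x = x
  integral1 : ∀ y, IsIntegral (Algebra.adjoin K {x}) y → IsIntegral (Algebra.adjoin K {x}) (g y)
  integral2 : ∀ y, IsIntegral (Algebra.adjoin K {x⁻¹}) y → IsIntegral (Algebra.adjoin K {x⁻¹}) (g y)
  rho_eq : ∀ y : gaussSubring A F, rho A F ⟨g y, gauss y y.2⟩ = φ (rho A F y)
  cond : ∀ f : bb A F' x', ∃ hf : φ f ∈ bb A F' x',
    (⟨φ f, hf⟩ : bb A F' x') - f ^ Q ∈ condIdeal C.Fr2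
  isK : ∀ u, IsK u → IsK (g u)

end Fermat.Agent.S34.Nodal.Inst

end
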