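/-
C1 nodal core, instantiation (architect helper201): from the contracts to the final theorem.

* `Contracts.setup` : the abstract `Setup` built from the contracts (residue field alg. closed);
* `Contracts.tor`   : for `g` compatible with the data, `u ≡ 1` at both valuations, `IsK u`:
                      `g u = z ^ n * u ^ Q`.
-/
import Fermat.Agent.S34.Nodal.Inst.Contracts

set_option autoImplicit false

noncomputable section

namespace Fermat.Agent.S34.Nodal.Inst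

open ModularCurve Fermat.Agent.S18.Vert Polynomial Module

variable {K : Type*} [Field K] {A : ValuationSubring K}
variable {F F' : IntermediateField K (LaurentSeries K)} {w : F ≃ₐ[K] F}

/-! ### Constants -/

theorem const_mem_OO (a : A) : algebraMap K F (a : K) ∈ OO A F w :=
  ⟨algebraMap_mem_gauss A F a, by
    show w (algebraMap K F (a : K)) ∈ gaussSubring A F
    rw [w.commutes]
    exact algebraMap_mem_gauss A F a⟩

theorem red2_const (a : A) :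
    red2 A F w ⟨algebraMap K F (a : K), const_mem_OO a⟩ =
      algebraMap (kk A) (Om A) (IsLocalRing.residue A a) := by
  apply Prod.ext
  · rw [red2_fst]
    exact rho_algebraMap A F a
  · rw [red2_snd]
    have e : (⟨w (algebraMap K F (a : K)), (const_mem_OO (w := w) a).2⟩ : gaussSubring A F) =
        ⟨algebraMap K F (a : K), algebraMap_mem_gauss A F a⟩ := Subtype.ext (w.commutes _)
    show rho A F ⟨w (algebraMap K F (a : K)), _⟩ = _
    rw [e]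
    exact rho_algebraMap A F a

theorem isIntegral_const (x : F) (c : K) : IsIntegral (Algebra.adjoin K {x}) (algebraMap K F c) := by
  have : algebraMap K F c =
      algebraMap (Algebra.adjoin K {x}) F (algebraMap K (Algebra.adjoin K {x}) c) := rfl
  rw [this]
  exact isIntegral_algebraMap

theorem const_mem_chart (x : F) (a : A) : algebraMap K F (a : K) ∈ chart A F w x :=
  ⟨const_mem_OO a, isIntegral_const x _⟩

theorem isIntegral_self (x : F) : IsIntegral (Algebra.adjoin K {x}) x := by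
  have : x = algebraMap (Algebra.adjoin K {x}) F ⟨x, Algebra.self_mem_adjoin_singleton K x⟩ := rfl
  rw [this]
  exact isIntegral_algebraMap

theorem isIntegral_mono {S S' : Subalgebra K F} (h : S ≤ S') {y : F} (hy : IsIntegral S y) :
    IsIntegral S' y := by
  obtain ⟨p, hp, hpy⟩ := hy
  refine ⟨p.map (Subalgebra.inclusion h).toRingHom, hp.map _, ?_⟩
  rw [Polynomial.eval₂_map]
  exact hpy

theorem chart_le_chartMid (x : F) : chart A F w x ≤ chartMid A F w x := fun _ hy =>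
  ⟨hy.1, isIntegral_mono (Algebra.adjoin_mono (by simp)) hy.2⟩

theorem chart_inv_le_chartMid (x : F) : chart A F w x⁻¹ ≤ chartMid A F w x := fun _ hy =>
  ⟨hy.1, isIntegral_mono (Algebra.adjoin_mono (by simp)) hy.2⟩

/-- The reduction of a chart, as a subalgebra. -/
def redAlg (x : F) : Subalgebra (kk A) (Om A) where
  carrier := {v | ∃ y : OO A F w, (y : F) ∈ chart A F w x ∧ red2 A F w y = v}
  mul_mem' := by
    rintro _ _ ⟨y, hy, rfl⟩ ⟨y', hy', rfl⟩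
    exact ⟨y * y', (chart A F w x).mul_mem hy hy', map_mul _ _ _⟩
  add_mem' := by
    rintro _ _ ⟨y, hy, rfl⟩ ⟨y', hy', rfl⟩
    exact ⟨y + y', (chart A F w x).add_mem hy hy', map_add _ _ _⟩
  algebraMap_mem' := by
    intro c
    obtain ⟨a, rfl⟩ := IsLocalRing.residue_surjective c
    exact ⟨⟨_, const_mem_OO a⟩, const_mem_chart x a, red2_const a⟩

namespace Contracts

variable {x' : F'} {x : F} {n q : ℕ} {IsK : F → Prop} (Ct : Contracts A F F' w x' x n q IsK)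

include Ct in
theorem two_le_sq : 2 ≤ q ^ 2 := by nlinarith [Ct.two_le]

theorem finite_quot : Module.Finite (kk A) (bb A F' x' ⧸ condIdeal Ct.Fr2) := by
  refine finite_quotient Ct.xb Ct.fin_b1 _ (X - X ^ (q ^ 2)) ?_ ?_
  · intro h
    have h1 := congrArg (fun p => Polynomial.coeff p 1) h
    have h2 : q ^ 2 ≠ 1 := by have := Ct.two_le_sq; omega
    simp [Polynomial.coeff_X_pow, Polynomial.coeff_X, h2.symm] at h1
  · have : aeval Ct.xb (X - X ^ (q ^ 2) : (kk A)[X]) = Ct.xb - Ct.Fr2 Ct.xb := by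
      rw [Ct.Fr2_xb]; simp
    rw [this]
    exact Ideal.subset_span ⟨Ct.xb, rfl⟩

theorem reduced_quot : IsReduced (bb A F' x' ⧸ condIdeal Ct.Fr2) :=
  isReduced_quotient_condIdeal Ct.Fr2 Ct.ψ (q ^ 2) Ct.two_le_sq Ct.Fr2_eq

variable [IsAlgClosed (kk A)]

/-- The points of the conductor on one component. -/
def T0 : Type _ := (exists_ev (condIdeal Ct.Fr2) Ct.finite_quot Ct.reduced_quot).choose

instance : Finite Ct.T0 := (exists_ev (condIdeal Ct.Fr2) Ct.finite_quot Ct.reduced_quot).choose_spec.choose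

/-- Evaluation at the points of the conductor on one component. -/
def ev0 : bb A F' x' →ₐ[kk A] (Ct.T0 → kk A) :=
  (exists_ev (condIdeal Ct.Fr2) Ct.finite_quot Ct.reduced_quot).choose_spec.choose_spec.choose

theorem ev0_eq_zero_iff (f : bb A F' x') : Ct.ev0 f = 0 ↔ f ∈ condIdeal Ct.Fr2 :=
  (exists_ev (condIdeal Ct.Fr2) Ct.finite_quot Ct.reduced_quot).choose_spec.choose_spec.choose_spec.2 f

/-- Evaluation at the points of the conductor. -/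
def ev2 : ((bb A F' x').prod (bb A F' x') : Subalgebra (kk A) (Om A)) →ₐ[kk A]
    (Ct.T0 ⊕ Ct.T0 → kk A) :=
  (exists_ev_prod (bb A F' x') Ct.ev0).choose

theorem ev2_inl (v : ((bb A F' x').prod (bb A F' x') : Subalgebra (kk A) (Om A))) (t : Ct.T0) :
    Ct.ev2 v (Sum.inl t) = Ct.ev0 ⟨(v : Om A).1, v.2.1⟩ t :=
  ((exists_ev_prod (bb A F' x') Ct.ev0).choose_spec v).1 t

theorem ev2_inr (v : ((bb A F' x').prod (bb A F' x') : Subalgebra (kk A) (Om A))) (t : Ct.T0) :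
    Ct.ev2 v (Sum.inr t) = Ct.ev0 ⟨(v : Om A).2, v.2.2⟩ t :=
  ((exists_ev_prod (bb A F' x') Ct.ev0).choose_spec v).2 t

omit [IsAlgClosed (kk A)] in
include Ct in
theorem root_OO (z : F) (hz : z ^ n ∈ OO A F w) : z ∈ OO A F w :=
  ⟨Ct.root z hz.1, Ct.root (w z) (by
    have h : w (z ^ n) ∈ gaussSubring A F := hz.2
    rwa [map_pow] at h)⟩

omit [IsAlgClosed (kk A)] in
include Ct in
theorem root_chart (t : F) (z : F) (hz : z ^ n ∈ chart A F w t) : z ∈ chart A F w t :=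
  ⟨Ct.root_OO z hz.1, IsIntegral.of_pow Ct.npos hz.2⟩

theorem ker_ev2 (v : ((bb A F' x').prod (bb A F' x') : Subalgebra (kk A) (Om A)))
    (hv : Ct.ev2 v = 0) : ∃ b : OO A F w, (b : F) ∈ chart A F w x ∧ red2 A F w b = v := by
  have h1 : (⟨(v : Om A).1, v.2.1⟩ : bb A F' x') ∈ condIdeal Ct.Fr2 := by
    rw [← Ct.ev0_eq_zero_iff]
    funext t
    rw [← Ct.ev2_inl, hv]; rfl
  have h2 : (⟨(v : Om A).2, v.2.2⟩ : bb A F' x') ∈ condIdeal Ct.Fr2 := by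
    rw [← Ct.ev0_eq_zero_iff]
    funext t
    rw [← Ct.ev2_inr, hv]; rfl
  have := prod_mem_of_gens (bb A F' x') (redAlg (A := A) (w := w) x) Ct.Fr2
    (fun c => by
      obtain ⟨y, hy, hyc⟩ := Ct.proj1 c
      exact ⟨(red2 A F w y).2, y, hy, Prod.ext hyc rfl⟩)
    (fun c => by
      obtain ⟨y, hy, hyc⟩ := Ct.proj2 c
      exact ⟨(red2 A F w y).1, y, hy, Prod.ext rfl hyc⟩)
    (fun f => by
      obtain ⟨y, hy, hyf⟩ := Ct.gen1 f
      exact ⟨y, hy, hyf⟩)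
    (fun f => by
      obtain ⟨y, hy, hyf⟩ := Ct.gen2 f
      exact ⟨y, hy, hyf⟩) _ _ h1 h2
  exact this

omit [IsAlgClosed (kk A)] in
include Ct in
theorem xinv_mem_chart : x⁻¹ ∈ chart A F w x⁻¹ := ⟨Ct.xinv_mem, isIntegral_self _⟩

omit [IsAlgClosed (kk A)] in
theorem mem_redAlg_inv (e : ℕ) (b : OO A F w) (hb : (b : F) ∈ chart A F w x)
    (hbt : red2 A F w ⟨x⁻¹, Ct.xinv_mem⟩ ^ e * red2 A F w b ∈
      ((bb A F' x'⁻¹).prod (bb A F' x'⁻¹) : Subalgebra (kk A) (Om A))) :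
    red2 A F w ⟨x⁻¹, Ct.xinv_mem⟩ ^ e * red2 A F w b ∈ redAlg (A := A) (w := w) x⁻¹ := by
  obtain ⟨P, hP0, hP⟩ := Ct.hcond2
  have hsG : red2 A F w ⟨x⁻¹, Ct.xinv_mem⟩ ∈ redAlg (A := A) (w := w) x⁻¹ :=
    ⟨⟨x⁻¹, Ct.xinv_mem⟩, Ct.xinv_mem_chart, rfl⟩
  obtain ⟨m, hm⟩ := Ct.exhaust b hb
  have hm' : (((⟨x⁻¹, Ct.xinv_mem⟩ : OO A F w) ^ m * b : OO A F w) : F) ∈ chart A F w x⁻¹ := by
    rw [Subring.coe_mul, Subring.coe_pow]
    exact hm
  have h1 : red2 A F w ⟨x⁻¹, Ct.xinv_mem⟩ ^ m * red2 A F w b ∈ redAlg (A := A) (w := w) x⁻¹ :=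
    ⟨(⟨x⁻¹, Ct.xinv_mem⟩ : OO A F w) ^ m * b, hm', by rw [map_mul, map_pow]⟩
  have h3 : ∀ v ∈ ((bb A F' x'⁻¹).prod (bb A F' x'⁻¹) : Subalgebra (kk A) (Om A)),
      aeval (red2 A F w ⟨x⁻¹, Ct.xinv_mem⟩) P * v ∈ redAlg (A := A) (w := w) x⁻¹ := by
    intro v hv
    obtain ⟨y, hy, hyv⟩ := hP v hv.1 hv.2
    exact ⟨y, hy, hyv⟩
  have h4 : red2 A F w ⟨x⁻¹, Ct.xinv_mem⟩ ^ m * (red2 A F w ⟨x⁻¹, Ct.xinv_mem⟩ ^ e * red2 A F w b)
      ∈ redAlg (A := A) (w := w) x⁻¹ := by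
    rw [mul_left_comm]
    exact Subalgebra.mul_mem _ (Subalgebra.pow_mem _ hsG _) h1
  exact mem_of_coprime (redAlg (A := A) (w := w) x⁻¹)
    ((bb A F' x'⁻¹).prod (bb A F' x'⁻¹)) (red2 A F w ⟨x⁻¹, Ct.xinv_mem⟩) hsG P hP0 h3 _ hbt m h4

omit [IsAlgClosed (kk A)] in
theorem lift_field : ∃ c : ℕ, ∀ e, c ≤ e → ∀ b : OO A F w, (b : F) ∈ chart A F w x →
    red2 A F w ⟨x⁻¹, Ct.xinv_mem⟩ ^ e * red2 A F w b ∈
      ((bb A F' x'⁻¹).prod (bb A F' x'⁻¹) : Subalgebra (kk A) (Om A)) →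
      ∃ y : OO A F w, (y : F) ∈ chart A F w x ∧ x⁻¹ ^ e * (y : F) ∈ chart A F w x⁻¹ ∧
        red2 A F w y = red2 A F w b := by
  obtain ⟨c, hc⟩ := Ct.hH1
  refine ⟨c, fun e he b hb hbt => ?_⟩
  obtain ⟨b2, hb2, hb2e⟩ := Ct.mem_redAlg_inv e b hb hbt
  exact lift_of_H1 (OO A F w) (red2 A F w) (chart A F w x) (chart A F w x⁻¹) (chartMid A F w x)
    (chart_le_chartMid x) (chart_inv_le_chartMid x) (fun _ h => h.1) x Ct.x_ne
    ⟨Ct.x_mem, isIntegral_self _⟩ Ct.xinv_mem_chart Ct.hdiv c hc e he b b2 hb hb2 hb2e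

/-- **The abstract nodal setting built from the contracts.** -/
def setup : Setup (kk A) F (Om A) (Ct.T0 ⊕ Ct.T0) where
  n := n
  npos := Ct.npos
  O := OO A F w
  red := red2 A F w
  B1 := chart A F w x
  B2 := chart A F w x⁻¹
  B1_le := fun _ h => h.1
  B2_le := fun _ h => h.1
  x := x
  x_ne := Ct.x_ne
  x_mem := ⟨Ct.x_mem, isIntegral_self _⟩
  xinv_mem := ⟨Ct.xinv_mem, isIntegral_self _⟩
  root_O := Ct.root_OO
  root1 := Ct.root_chart x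
  root2 := Ct.root_chart x⁻¹
  const := by
    intro c
    obtain ⟨a, rfl⟩ := IsLocalRing.residue_surjective c
    exact ⟨⟨_, const_mem_OO a⟩, const_mem_chart x a, const_mem_chart x⁻¹ a, red2_const a⟩
  bt1 := (bb A F' x').prod (bb A F' x')
  bt2 := (bb A F' x'⁻¹).prod (bb A F' x'⁻¹)
  red1 := fun b hb => Ct.red_chart1 b hb
  red2 := fun b hb => Ct.red_chart2 b hb
  int1 := fun y hy => ⟨Ct.int1 ⟨y, y.2.1⟩ hy.1, Ct.int1 ⟨w y, y.2.2⟩ hy.2⟩
  int2 := fun y hy => ⟨Ct.int2 ⟨y, y.2.1⟩ hy.1, Ct.int2 ⟨w y, y.2.2⟩ hy.2⟩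
  ev := Ct.ev2
  ker_ev := Ct.ker_ev2
  exhaust := Ct.exhaust
  lift := Ct.lift_field

/-- **Block R**: the Riemann hypothesis for the elements `u ≡ 1` with `n ∣ div u`. -/
def RiemHyp : Prop :=
  ∀ u : OO A F w, IsK u → red2 A F w u = 1 → Ct.setup.Riem (u : F)

omit [IsAlgClosed (kk A)] in
include Ct in
theorem isK_pow {u : F} (hu : IsK u) (m : ℕ) : IsK (u ^ m) := by
  induction m with
  | zero => rw [pow_zero]; exact Ct.isK_one
  | succ m ih => rw [pow_succ]; exact Ct.isK_mul _ _ ih hu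

theorem ev0_eq_pow {φ : LaurentSeries (kk A) →+* LaurentSeries (kk A)} {Q : ℕ} (f : bb A F' x')
    (hf : φ f ∈ bb A F' x')
    (h : (⟨φ f, hf⟩ : bb A F' x') - f ^ Q ∈ condIdeal Ct.Fr2) :
    Ct.ev0 ⟨φ f, hf⟩ = Ct.ev0 f ^ Q := by
  have := (Ct.ev0_eq_zero_iff _).2 h
  rwa [map_sub, map_pow, sub_eq_zero] at this

theorem ev2_prodMap {g : F ≃+* F} {φ : LaurentSeries (kk A) →+* LaurentSeries (kk A)}
    {Q : ℕ} (G : GalCompat A F F' w Ct g φ Q)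
    (v : ((bb A F' x').prod (bb A F' x') : Subalgebra (kk A) (Om A))) :
    ∃ hm : (RingHom.prodMap φ φ) (v : Om A) ∈
        ((bb A F' x').prod (bb A F' x') : Subalgebra (kk A) (Om A)),
      Ct.ev2 ⟨(RingHom.prodMap φ φ) (v : Om A), hm⟩ = Ct.ev2 v ^ Q := by
  obtain ⟨h1, h1'⟩ := G.cond ⟨(v : Om A).1, v.2.1⟩
  obtain ⟨h2, h2'⟩ := G.cond ⟨(v : Om A).2, v.2.2⟩
  have hm : (RingHom.prodMap φ φ) (v : Om A) ∈
      ((bb A F' x').prod (bb A F' x') : Subalgebra (kk A) (Om A)) := ⟨h1, h2⟩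
  refine ⟨hm, ?_⟩
  funext t
  rcases t with t | t
  · rw [Pi.pow_apply, Ct.ev2_inl ⟨_, hm⟩ t, Ct.ev2_inl v t]
    exact congrFun (Ct.ev0_eq_pow _ h1 h1') t
  · rw [Pi.pow_apply, Ct.ev2_inr ⟨_, hm⟩ t, Ct.ev2_inr v t]
    exact congrFun (Ct.ev0_eq_pow _ h2 h2') t

/-- **The final theorem of the nodal core.** -/
theorem tor (hR : Ct.RiemHyp) {g : F ≃+* F} {φ : LaurentSeries (kk A) →+* LaurentSeries (kk A)}
    {Q : ℕ} (G : GalCompat A F F' w Ct g φ Q) (u : F) (hu : u ∈ OO A F w) (hu' : u⁻¹ ∈ OO A F w)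
    (hred : red2 A F w ⟨u, hu⟩ = 1) (hK : IsK u) : ∃ z : F, g u = z ^ n * u ^ Q := by
  have hu0 : u ≠ 0 := by
    rintro rfl
    have h0 : (⟨0, hu⟩ : OO A F w) = 0 := rfl
    rw [h0, map_zero] at hred
    exact zero_ne_one hred
  have hgO : ∀ y ∈ OO A F w, g y ∈ OO A F w := fun y hy =>
    ⟨G.gauss y hy.1, by
      show w (g y) ∈ gaussSubring A F
      rw [← G.comm]
      exact G.gauss _ hy.2⟩
  have hmul : (⟨u, hu⟩ : OO A F w) * ⟨u⁻¹, hu'⟩ = 1 := Subtype.ext (mul_inv_cancel₀ hu0)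
  have hred' : red2 A F w ⟨u⁻¹, hu'⟩ = 1 := by
    have := congrArg (red2 A F w) hmul
    rwa [map_mul, hred, one_mul, map_one] at this
  have hgred : ∀ y : OO A F w, red2 A F w ⟨g y, hgO y y.2⟩ = (RingHom.prodMap φ φ) (red2 A F w y) := by
    intro y
    apply Prod.ext
    · exact G.rho_eq ⟨y, y.2.1⟩
    · have e : (⟨w (g y), (hgO y y.2).2⟩ : gaussSubring A F) =
          ⟨g (w y), G.gauss _ y.2.2⟩ := Subtype.ext (G.comm y).symm
      show rho A F ⟨w (g y), _⟩ = φ (rho A F ⟨w y, y.2.2⟩)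
      rw [e]
      exact G.rho_eq ⟨w y, y.2.2⟩
  have hhO : g u * u⁻¹ ^ Q ∈ OO A F w := (OO A F w).mul_mem (hgO u hu) ((OO A F w).pow_mem hu' Q)
  have hredh : red2 A F w ⟨g u * u⁻¹ ^ Q, hhO⟩ = 1 := by
    have e : (⟨g u * u⁻¹ ^ Q, hhO⟩ : OO A F w) = ⟨g u, hgO u hu⟩ * ⟨u⁻¹, hu'⟩ ^ Q := rfl
    rw [e, map_mul, map_pow, hred', one_pow, mul_one, hgred ⟨u, hu⟩, hred, map_one]
  have hKh : IsK (g u * u⁻¹ ^ Q) := Ct.isK_mul _ _ (G.isK u hK) (Ct.isK_pow (Ct.isK_inv u hK) Q)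
  obtain ⟨⟨s1, hs1, hs1'⟩, ⟨s2, hs2, hs2'⟩⟩ := Ct.setup.main g (RingHom.prodMap φ φ) Q hgO
    (fun y hy => ⟨hgO y hy.1, G.integral1 y hy.2⟩) (fun y hy => ⟨hgO y hy.1, G.integral2 y hy.2⟩)
    G.fix_x hgred
    (fun v => Ct.ev2_prodMap G v)
    (u := ⟨u, hu⟩) (u' := ⟨u⁻¹, hu'⟩) hmul hred (hR ⟨u, hu⟩ hK hred)
    (hR ⟨u⁻¹, hu'⟩ (Ct.isK_inv u hK) hred') (hR ⟨g u * u⁻¹ ^ Q, hhO⟩ hKh hredh)
  obtain ⟨z, hz⟩ := Ct.layerII ⟨g u * u⁻¹ ^ Q, hhO⟩ s1 s2 hredh hs1' hs2' hs1 hs2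
  refine ⟨z, ?_⟩
  have hz' : g u * u⁻¹ ^ Q = z ^ n := hz
  rw [← hz', mul_assoc, ← mul_pow, inv_mul_cancel₀ hu0, one_pow, mul_one]

end Contracts

end Fermat.Agent.S34.Nodal.Inst

end
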